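import Mathlib
import Fermat.Prelude.Def_GaloisRep_DeformationCondition

/-!
# S53, package (T): pure algebra of Artinian test algebras

Statements `T1`-`T10` of the S53 interface (`InterfaceT`), proved.
-/

set_option autoImplicit false
set_option linter.unusedSectionVars false
set_option linter.style.haveILetI false

namespace Fermat.Agent.S53.H88

open IsLocalRing GaloisRep

variable {𝒪 : Type} [CommRing 𝒪] [IsLocalRing 𝒪]

/-- T1: an `𝒪`-algebra map into a local `𝒪`-algebra with residue field `𝒪/m` is a local hom. -/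
theorem isLocalHom_algHom {A B : Type} [CommRing A] [IsLocalRing A] [Algebra 𝒪 A]
    [CommRing B] [IsLocalRing B] [Algebra 𝒪 B]
    (hB : IsLocalHom (algebraMap 𝒪 B)) (hresB : Function.Surjective (residue B ∘ algebraMap 𝒪 B))
    (φ : A →ₐ[𝒪] B) : IsLocalHom (φ : A →+* B) := by
  refine ⟨fun a ha => ?_⟩
  by_contra hna
  obtain ⟨c, hc⟩ := hresB (residue B (φ a))
  have hmem : φ a - algebraMap 𝒪 B c ∈ maximalIdeal B := by
    have h : residue B (φ a - algebraMap 𝒪 B c) = 0 := by
      rw [map_sub, sub_eq_zero]; exact hc.symm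
    exact (residue_eq_zero_iff _).mp h
  have hcB : IsUnit (algebraMap 𝒪 B c) := by
    by_contra hcu
    have h1 : algebraMap 𝒪 B c ∈ maximalIdeal B := (mem_maximalIdeal _).mpr hcu
    have h2 : φ a ∈ maximalIdeal B := by
      have := Ideal.add_mem _ hmem h1
      simpa using this
    exact ((mem_maximalIdeal _).mp h2) ha
  have hc𝒪 : IsUnit c := hB.map_nonunit c hcB
  have hcA : IsUnit (algebraMap 𝒪 A c) := hc𝒪.map (algebraMap 𝒪 A)
  have hsub : IsUnit (a - algebraMap 𝒪 A c) := by
    by_contra hu
    have h1 : a - algebraMap 𝒪 A c ∈ maximalIdeal A := (mem_maximalIdeal _).mpr hu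
    have h2 : a ∈ maximalIdeal A := (mem_maximalIdeal _).mpr hna
    have h3 : algebraMap 𝒪 A c ∈ maximalIdeal A := by
      have := Ideal.sub_mem _ h2 h1
      simpa using this
    exact ((mem_maximalIdeal _).mp h3) hcA
  have hφ : IsUnit (φ (a - algebraMap 𝒪 A c)) := hsub.map φ
  rw [map_sub, AlgHom.commutes] at hφ
  exact ((mem_maximalIdeal _).mp hmem) hφ

/-- T2: a quotient of a local ring by a proper ideal is local. -/
theorem isLocalRing_quotient {C : Type} [CommRing C] [IsLocalRing C] (I : Ideal C) (hI : I ≠ ⊤) :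
    IsLocalRing (C ⧸ I) := by
  have : Nontrivial (C ⧸ I) := Ideal.Quotient.nontrivial_iff.mpr hI
  exact IsLocalRing.of_surjective' (Ideal.Quotient.mk I) Ideal.Quotient.mk_surjective

/-- The maximal ideal of a local quotient is the image of the maximal ideal. -/
theorem maximalIdeal_quotient {C : Type} [CommRing C] [IsLocalRing C] (I : Ideal C)
    [IsLocalRing (C ⧸ I)] :
    maximalIdeal (C ⧸ I) = (maximalIdeal C).map (Ideal.Quotient.mk I) := by
  have hloc : IsLocalHom (Ideal.Quotient.mk I) :=
    IsLocalHom.of_surjective (Ideal.Quotient.mk I) Ideal.Quotient.mk_surjective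
  ext x
  obtain ⟨a, rfl⟩ := Ideal.Quotient.mk_surjective x
  constructor
  · intro hx
    apply Ideal.mem_map_of_mem
    rw [mem_maximalIdeal, mem_nonunits_iff] at hx ⊢
    exact fun ha => hx (ha.map _)
  · intro hx
    have hle : (maximalIdeal C).map (Ideal.Quotient.mk I) ≤ maximalIdeal (C ⧸ I) := by
      rw [Ideal.map_le_iff_le_comap]
      intro a ha
      exact map_nonunit (Ideal.Quotient.mk I) a ha
    exact hle hx

/-- A local quotient of a local `𝒪`-algebra with residue field generated by `𝒪` inherits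
locality of the structure map and the residue field condition. -/
theorem quotient_isLocalHom_and_residue_surjective (C : Type) [CommRing C] [IsLocalRing C]
    [Algebra 𝒪 C] (hloc : IsLocalHom (algebraMap 𝒪 C))
    (hres : Function.Surjective (residue C ∘ algebraMap 𝒪 C)) (I : Ideal C)
    [IsLocalRing (C ⧸ I)] :
    IsLocalHom (algebraMap 𝒪 (C ⧸ I)) ∧
      Function.Surjective (residue (C ⧸ I) ∘ algebraMap 𝒪 (C ⧸ I)) := by
  have hq : IsLocalHom (Ideal.Quotient.mk I) :=
    IsLocalHom.of_surjective (Ideal.Quotient.mk I) Ideal.Quotient.mk_surjective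
  refine ⟨⟨fun c hc => ?_⟩, fun y => ?_⟩
  · have h1 : IsUnit (Ideal.Quotient.mk I (algebraMap 𝒪 C c)) := hc
    exact hloc.map_nonunit c (hq.map_nonunit _ h1)
  · obtain ⟨x, rfl⟩ := residue_surjective (R := C ⧸ I) y
    obtain ⟨a, rfl⟩ := Ideal.Quotient.mk_surjective x
    obtain ⟨c, hc⟩ := hres (residue C a)
    refine ⟨c, ?_⟩
    have hmem : a - algebraMap 𝒪 C c ∈ maximalIdeal C := by
      have h : residue C (a - algebraMap 𝒪 C c) = 0 := by
        rw [map_sub, sub_eq_zero]; exact hc.symm
      exact (residue_eq_zero_iff _).mp h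
    have h1 : Ideal.Quotient.mk I (a - algebraMap 𝒪 C c) ∈ maximalIdeal (C ⧸ I) := by
      rw [maximalIdeal_quotient]
      exact Ideal.mem_map_of_mem _ hmem
    have h0 := (residue_eq_zero_iff _).mpr h1
    rw [map_sub, map_sub, sub_eq_zero] at h0
    exact h0.symm

/-- T3: `A ⧸ m ^ (n + 1)` is an Artinian test algebra for a noetherian local test algebra `A`. -/
theorem isArtinianTestAlgebra_quotient_pow (A : Type) [CommRing A] [IsLocalRing A]
    [IsNoetherianRing A] [Algebra 𝒪 A] (hloc : IsLocalHom (algebraMap 𝒪 A))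
    (hres : Function.Surjective (residue A ∘ algebraMap 𝒪 A)) (n : ℕ)
    [IsLocalRing (A ⧸ maximalIdeal A ^ (n + 1))] :
    IsArtinianTestAlgebra 𝒪 (A ⧸ maximalIdeal A ^ (n + 1)) where
  isLocalHom := (quotient_isLocalHom_and_residue_surjective A hloc hres _).1
  residue_surjective := (quotient_isLocalHom_and_residue_surjective A hloc hres _).2
  isArtinian := by
    rw [isArtinianRing_iff_isNilpotent_maximalIdeal]
    refine ⟨n + 1, ?_⟩
    rw [maximalIdeal_quotient, ← Ideal.map_pow, Ideal.zero_eq_bot, Ideal.map_eq_bot_iff_le_ker,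
      Ideal.mk_ker]

/-- T5: a (local) quotient of an Artinian test algebra is an Artinian test algebra. -/
theorem isArtinianTestAlgebra_quotient (C : Type) [CommRing C] [IsLocalRing C] [Algebra 𝒪 C]
    (hC : IsArtinianTestAlgebra 𝒪 C) (I : Ideal C) [IsLocalRing (C ⧸ I)] :
    IsArtinianTestAlgebra 𝒪 (C ⧸ I) where
  isLocalHom :=
    (quotient_isLocalHom_and_residue_surjective C hC.isLocalHom hC.residue_surjective I).1
  residue_surjective :=
    (quotient_isLocalHom_and_residue_surjective C hC.isLocalHom hC.residue_surjective I).2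
  isArtinian := by
    have := hC.isArtinian
    exact Function.Surjective.isArtinianRing (Ideal.Quotient.mk_surjective (I := I))

/-- T6: the residue field is an Artinian test algebra. -/
theorem isArtinianTestAlgebra_residueField : IsArtinianTestAlgebra 𝒪 (ResidueField 𝒪) where
  isLocalHom := by
    show IsLocalHom (residue 𝒪)
    infer_instance
  residue_surjective := by
    intro y
    obtain ⟨x, rfl⟩ := residue_surjective y
    obtain ⟨c, rfl⟩ := residue_surjective x
    exact ⟨c, rfl⟩
  isArtinian := inferInstance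

/-- T7: the dual numbers over the residue field, with the algebra structure used in
`GaloisRep.TangentFinite`, are an Artinian test algebra. -/
theorem isArtinianTestAlgebra_dualNumber :
    letI : Algebra 𝒪 (DualNumber (ResidueField 𝒪)) :=
      ((algebraMap (ResidueField 𝒪) (DualNumber (ResidueField 𝒪))).comp
        (algebraMap 𝒪 (ResidueField 𝒪))).toAlgebra
    IsArtinianTestAlgebra 𝒪 (DualNumber (ResidueField 𝒪)) := by
  letI : Algebra 𝒪 (DualNumber (ResidueField 𝒪)) :=
    ((algebraMap (ResidueField 𝒪) (DualNumber (ResidueField 𝒪))).comp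
      (algebraMap 𝒪 (ResidueField 𝒪))).toAlgebra
  have halg : ∀ c : 𝒪, algebraMap 𝒪 (DualNumber (ResidueField 𝒪)) c =
      TrivSqZeroExt.inl (residue 𝒪 c) := fun c => rfl
  refine ⟨⟨fun c hc => ?_⟩, fun y => ?_, ?_⟩
  · rw [halg, TrivSqZeroExt.isUnit_iff_isUnit_fst, TrivSqZeroExt.fst_inl] at hc
    by_contra hcn
    have h0 : residue 𝒪 c = 0 := (residue_eq_zero_iff c).mpr ((mem_maximalIdeal _).mpr hcn)
    rw [h0] at hc
    exact not_isUnit_zero hc
  · obtain ⟨x, rfl⟩ := residue_surjective (R := DualNumber (ResidueField 𝒪)) y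
    obtain ⟨c, hc⟩ := residue_surjective (R := 𝒪) (TrivSqZeroExt.fst x)
    refine ⟨c, ?_⟩
    have hmem : x - algebraMap 𝒪 (DualNumber (ResidueField 𝒪)) c ∈
        maximalIdeal (DualNumber (ResidueField 𝒪)) := by
      rw [mem_maximalIdeal, mem_nonunits_iff, TrivSqZeroExt.isUnit_iff_isUnit_fst, halg,
        TrivSqZeroExt.fst_sub, TrivSqZeroExt.fst_inl, hc, sub_self]
      exact not_isUnit_zero
    have h0 := (residue_eq_zero_iff _).mpr hmem
    rw [map_sub, sub_eq_zero] at h0
    exact h0.symm
  · have : Module.Finite (ResidueField 𝒪) (DualNumber (ResidueField 𝒪)) :=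
      inferInstanceAs (Module.Finite (ResidueField 𝒪) (ResidueField 𝒪 × ResidueField 𝒪))
    exact IsArtinianRing.of_finite (ResidueField 𝒪) (DualNumber (ResidueField 𝒪))

/-- T8: the maximal ideal of an Artinian local ring is nilpotent. -/
theorem exists_maximalIdeal_pow_eq_bot (A : Type) [CommRing A] [IsLocalRing A]
    [IsArtinianRing A] : ∃ N : ℕ, maximalIdeal A ^ N = ⊥ := by
  have h := IsArtinianRing.isNilpotent_jacobson_bot (R := A)
  rw [IsLocalRing.jacobson_eq_maximalIdeal ⊥ bot_ne_top] at h
  obtain ⟨n, hn⟩ := h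
  exact ⟨n, hn⟩

/-- T9: a ring is the fibre product of its quotients by two ideals over the quotient by
their sum. -/
theorem exists_of_factor_eq {C : Type} [CommRing C] (I J : Ideal C) (a : C ⧸ I) (b : C ⧸ J)
    (h : Ideal.Quotient.factor (le_sup_left : I ≤ I ⊔ J) a =
      Ideal.Quotient.factor (le_sup_right : J ≤ I ⊔ J) b) :
    ∃ x : C, Ideal.Quotient.mk I x = a ∧ Ideal.Quotient.mk J x = b := by
  obtain ⟨a₀, rfl⟩ := Ideal.Quotient.mk_surjective a
  obtain ⟨b₀, rfl⟩ := Ideal.Quotient.mk_surjective b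
  rw [Ideal.Quotient.factor_mk, Ideal.Quotient.factor_mk, Ideal.Quotient.eq] at h
  obtain ⟨i, hi, j, hj, hij⟩ := Submodule.mem_sup.mp h
  refine ⟨a₀ - i, ?_, ?_⟩
  · rw [Ideal.Quotient.eq]
    simpa using I.neg_mem hi
  · rw [Ideal.Quotient.eq]
    have e : a₀ - i - b₀ = j := by linear_combination (-1 : C) * hij
    rw [e]
    exact hj

/-- T10: the bijection `ResidueField 𝒪 ≃ ResidueField A` of a test algebra. -/
theorem residueField_map_bijective (A : Type) [CommRing A] [IsLocalRing A] [Algebra 𝒪 A]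
    [IsLocalHom (algebraMap 𝒪 A)]
    (hres : Function.Surjective (residue A ∘ algebraMap 𝒪 A)) :
    Function.Bijective (IsLocalRing.ResidueField.map (algebraMap 𝒪 A)) := by
  refine ⟨(ResidueField.map (algebraMap 𝒪 A)).injective, fun y => ?_⟩
  obtain ⟨c, hc⟩ := hres y
  exact ⟨residue 𝒪 c, by rw [ResidueField.map_residue]; exact hc⟩

end Fermat.Agent.S53.H88
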